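/-
S55 / 42-FIN (helper62), part (A): cocycle bookkeeping.

`continuousH1S S A` is finite as soon as the group of `S`-characters
`Hom_S(G_K, ℤ/p)` of ONE finite extension `K/ℚ` trivialising `A` is finite.
No inflation-restriction sequence is used: a level cocycle `c` is determined by its restriction to
`G_K` (an additive map `G_K → A`, whose coordinates are `S`-characters) and by its values on the
finitely many coset representatives of `G_K` in `G_ℚ`.
-/
import Mathlib
import Fermat.Prelude.Def_GroupCohomology_ContinuousUnramified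
import Fermat.Agent.Lib.FrobeniusExists

set_option autoImplicit false
set_option linter.style.haveILetI false

open CategoryTheory groupCohomology
open Fermat.Agent.Lib.FrobeniusExists

namespace Fermat.Agent.S55.Fin62.Cocycle

attribute [local instance] isAlgebraic_Qb isAlgClosure_Qb isGalois_Qb

variable {p : ℕ} [Fact p.Prime]

/-- `χ : G_K → ℤ/p` is an `S`-character: it is trivial on `G_K ∩ G_F` for some finite `F/ℚ`
unramified outside `S`. -/
def IsSChar (S : Finset Nat.Primes) (K : IntermediateField ℚ Qb)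
    (χ : ↥K.fixingSubgroup →* Multiplicative (ZMod p)) : Prop :=
  ∃ F : IntermediateField ℚ Qb, F.IsUnramifiedOutside S ∧
    ∀ s : ↥K.fixingSubgroup, (s : GQ) ∈ F.fixingSubgroup → χ s = 1

section

variable (A : Rep (ZMod p) GQ) (K : IntermediateField ℚ Qb)

/-- the restriction of a cocycle to `G_K` (which acts trivially on `A`), composed with a linear
functional, is a character of `G_K`. -/
noncomputable def charOf (hK : ∀ s ∈ K.fixingSubgroup, A.ρ s = 1) (c : cocycles₁ A)
    (ℓ : A →ₗ[ZMod p] ZMod p) : ↥K.fixingSubgroup →* Multiplicative (ZMod p) where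
  toFun s := Multiplicative.ofAdd (ℓ (c (s : GQ)))
  map_one' := by
    show Multiplicative.ofAdd (ℓ (c ((1 : ↥K.fixingSubgroup) : GQ))) = 1
    rw [Subgroup.coe_one, cocycles₁_map_one, map_zero]
    rfl
  map_mul' s t := by
    show Multiplicative.ofAdd (ℓ (c ((s * t : ↥K.fixingSubgroup) : GQ))) =
      Multiplicative.ofAdd (ℓ (c (s : GQ))) * Multiplicative.ofAdd (ℓ (c (t : GQ)))
    have h := (mem_cocycles₁_iff (c : GQ → A)).1 c.2 (s : GQ) (t : GQ)
    rw [hK s s.2, Module.End.one_apply] at h
    rw [Subgroup.coe_mul]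
    have h' : c ((s : GQ) * (t : GQ)) = c (t : GQ) + c (s : GQ) := h
    rw [h', map_add, add_comm, ofAdd_add]

theorem charOf_apply (hK : ∀ s ∈ K.fixingSubgroup, A.ρ s = 1) (c : cocycles₁ A)
    (ℓ : A →ₗ[ZMod p] ZMod p) (s : ↥K.fixingSubgroup) :
    charOf A K hK c ℓ s = Multiplicative.ofAdd (ℓ (c (s : GQ))) := rfl

theorem isSChar_charOf (S : Finset Nat.Primes) (hK : ∀ s ∈ K.fixingSubgroup, A.ρ s = 1)
    (c : cocycles₁ A) (hc : IsLevelConstantS₁ S (c : GQ → A)) (ℓ : A →ₗ[ZMod p] ZMod p) :
    IsSChar S K (charOf A K hK c ℓ) := by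
  obtain ⟨F, hF, h⟩ := hc
  refine ⟨F, hF, fun s hs => ?_⟩
  have h1 := h 1 (s : GQ) hs
  rw [one_mul] at h1
  have h2 : c (s : GQ) = 0 := by
    have : (c : GQ → A) (s : GQ) = (c : GQ → A) 1 := h1
    rw [this]
    exact cocycles₁_map_one c
  rw [charOf_apply, h2, map_zero]
  rfl

end

/-- **(A)** finiteness of `continuousH1S S A` from finiteness of the `S`-characters of one
trivialising field. -/
theorem finite_continuousH1S_of_finite_sChar (S : Finset Nat.Primes) (A : Rep (ZMod p) GQ)
    [FiniteDimensional (ZMod p) A] (K : IntermediateField ℚ Qb) [FiniteDimensional ℚ K]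
    (hK : ∀ s ∈ K.fixingSubgroup, A.ρ s = 1)
    (hfin : Finite {χ : ↥K.fixingSubgroup →* Multiplicative (ZMod p) // IsSChar S K χ}) :
    Finite ↥(continuousH1S S A) := by
  classical
  haveI : Finite A := Module.finite_of_finite (ZMod p)
  haveI : Finite (GQ ⧸ K.fixingSubgroup) :=
    Subgroup.quotient_finite_of_isOpen K.fixingSubgroup K.fixingSubgroup_isOpen
  let b := Module.finBasis (ZMod p) A
  -- the level cocycles form a finite set
  have hZ : Finite ↥(levelCocyclesS₁ S A) := by
    have hlev : ∀ c : ↥(levelCocyclesS₁ S A),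
        IsLevelConstantS₁ S (((c : cocycles₁ A) : GQ → A)) := fun c => c.2
    let Ψ : ↥(levelCocyclesS₁ S A) →
        (Fin (Module.finrank (ZMod p) A) →
          {χ : ↥K.fixingSubgroup →* Multiplicative (ZMod p) // IsSChar S K χ}) ×
        ((GQ ⧸ K.fixingSubgroup) → A) := fun c =>
      (fun i => ⟨charOf A K hK (c : cocycles₁ A) (b.coord i),
          isSChar_charOf A K S hK (c : cocycles₁ A) (hlev c) (b.coord i)⟩,
        fun x => (c : cocycles₁ A) x.out)
    have hΨ : Function.Injective Ψ := by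
      intro c c' h
      have h1 : ∀ s : ↥K.fixingSubgroup,
          (c : cocycles₁ A) (s : GQ) = (c' : cocycles₁ A) (s : GQ) := by
        intro s
        apply b.ext_elem
        intro i
        have h2 := congrFun (congrArg Prod.fst h) i
        have h3 := congrArg (fun χ => χ.1 s) h2
        simp only [Ψ, charOf_apply] at h3
        exact Multiplicative.ofAdd.injective h3
      have h2 : ∀ x : GQ ⧸ K.fixingSubgroup,
          (c : cocycles₁ A) x.out = (c' : cocycles₁ A) x.out := fun x =>
        congrFun (congrArg Prod.snd h) x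
      apply Subtype.ext
      apply cocycles₁_ext
      intro g
      obtain ⟨h, hh⟩ := QuotientGroup.mk_out_eq_mul K.fixingSubgroup g
      have hg : g = (QuotientGroup.mk g : GQ ⧸ K.fixingSubgroup).out * ((h⁻¹ : ↥K.fixingSubgroup) : GQ) := by
        rw [hh, Subgroup.coe_inv, mul_assoc, mul_inv_cancel, mul_one]
      have e1 := (mem_cocycles₁_iff ((c : cocycles₁ A) : GQ → A)).1 (c : cocycles₁ A).2
        (QuotientGroup.mk g : GQ ⧸ K.fixingSubgroup).out ((h⁻¹ : ↥K.fixingSubgroup) : GQ)
      have e2 := (mem_cocycles₁_iff ((c' : cocycles₁ A) : GQ → A)).1 (c' : cocycles₁ A).2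
        (QuotientGroup.mk g : GQ ⧸ K.fixingSubgroup).out ((h⁻¹ : ↥K.fixingSubgroup) : GQ)
      rw [← hg] at e1 e2
      show ((c : cocycles₁ A) : GQ → A) g = ((c' : cocycles₁ A) : GQ → A) g
      rw [e1, e2]
      rw [h1 h⁻¹, h2 (QuotientGroup.mk g)]
    exact Finite.of_injective Ψ hΨ
  -- hence so is its image in `H¹`
  have : continuousH1S S A = (levelCocyclesS₁ S A).map (H1π A).hom := rfl
  rw [this]
  exact Finite.of_surjective _ (LinearMap.submoduleMap_surjective (H1π A).hom (levelCocyclesS₁ S A))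

/-- a finite extension of `ℚ` trivialising a finite smooth module and containing `ζ_p`. -/
theorem exists_trivialising_field (A : Rep (ZMod p) GQ) [FiniteDimensional (ZMod p) A]
    (hsm : ∀ m : A, ∃ F : IntermediateField ℚ Qb, FiniteDimensional ℚ F ∧
      ∀ s ∈ F.fixingSubgroup, A.ρ s m = m) :
    ∃ (K : IntermediateField ℚ Qb) (ζ : Qb), FiniteDimensional ℚ K ∧ IsPrimitiveRoot ζ p ∧
      ζ ∈ K ∧ ∀ s ∈ K.fixingSubgroup, A.ρ s = 1 := by
  classical
  haveI : Finite A := Module.finite_of_finite (ZMod p)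
  haveI : NeZero (p : Qb) := ⟨by exact_mod_cast (Fact.out : p.Prime).ne_zero⟩
  obtain ⟨ζ, hζ⟩ := HasEnoughRootsOfUnity.exists_primitiveRoot Qb p
  choose F hF hFfix using hsm
  haveI : ∀ m, FiniteDimensional ℚ (F m) := hF
  have hζint : IsIntegral ℚ ζ := (isAlgebraic_Qb.isAlgebraic ζ).isIntegral
  haveI : FiniteDimensional ℚ (IntermediateField.adjoin ℚ {ζ}) :=
    IntermediateField.adjoin.finiteDimensional hζint
  refine ⟨(⨆ m, F m) ⊔ IntermediateField.adjoin ℚ {ζ}, ζ, inferInstance, hζ, ?_, ?_⟩
  · exact (le_sup_right : IntermediateField.adjoin ℚ {ζ} ≤ _)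
      (IntermediateField.mem_adjoin_simple_self ℚ ζ)
  · intro s hs
    ext m
    have hle : F m ≤ (⨆ m, F m) ⊔ IntermediateField.adjoin ℚ {ζ} :=
      le_trans (le_iSup F m) le_sup_left
    have := hFfix m s (IntermediateField.fixingSubgroup_antitone hle hs)
    simpa using this

end Fermat.Agent.S55.Fin62.Cocycle
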