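/-
S55 / 42-FIN (helper62), part (B): Kummer generators of characters of `G_K`, `K ∋ ζ_p`.

Every character `χ : G_K → ℤ/p` that is trivial on `G_K ∩ G_F` for a finite `F/ℚ` is a Kummer
character: there is `β ∈ ℚ̄ˣ` with `β ^ p ∈ K` and `s β = ζ ^ χ(s) • β` for all `s ∈ G_K`.
(Hilbert 90 in the form `Kummer99.exists_eigenvector`, applied to a finite Galois `E/K`.)
-/
import Mathlib
import Fermat.Agent.Lib.FrobeniusExists
import Fermat.Agent.S55.Kummer99.Pairing

set_option autoImplicit false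
set_option linter.style.haveILetI false
set_option linter.unusedSectionVars false
set_option synthInstance.maxHeartbeats 200000

open Fermat.Agent.Lib.FrobeniusExists

namespace Fermat.Agent.S55.Fin62.Kummer

attribute [local instance] isAlgebraic_Qb isAlgClosure_Qb isGalois_Qb

variable {p : ℕ} [Fact p.Prime]

/-- `k ↦ ζ ^ k` as a homomorphism `Multiplicative (ZMod p) →* M` for `ζ ^ p = 1`. -/
noncomputable def powHom {M : Type*} [Monoid M] (z : M) (hz : z ^ p = 1) :
    Multiplicative (ZMod p) →* M where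
  toFun k := z ^ (Multiplicative.toAdd k).val
  map_one' := by
    show z ^ (Multiplicative.toAdd (1 : Multiplicative (ZMod p))).val = 1
    rw [toAdd_one, ZMod.val_zero, pow_zero]
  map_mul' a b := by
    show z ^ (Multiplicative.toAdd (a * b)).val =
      z ^ (Multiplicative.toAdd a).val * z ^ (Multiplicative.toAdd b).val
    rw [toAdd_mul, ZMod.val_add, ← pow_add, ← pow_eq_pow_mod _ hz]

theorem powHom_apply {M : Type*} [Monoid M] (z : M) (hz : z ^ p = 1)
    (k : Multiplicative (ZMod p)) : powHom z hz k = z ^ (Multiplicative.toAdd k).val := rfl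

theorem normal_of_algebra' (E : IntermediateField ℚ Qb) (h : @Normal ℚ E _ _ E.algebra') :
    Normal ℚ E := h

/-- **(B)** existence of a Kummer generator. -/
theorem exists_kummer_generator (K : IntermediateField ℚ Qb) [FiniteDimensional ℚ K]
    {ζ : Qb} (hζ : IsPrimitiveRoot ζ p) (hζK : ζ ∈ K)
    (χ : ↥K.fixingSubgroup →* Multiplicative (ZMod p))
    (hχ : ∃ F : IntermediateField ℚ Qb, FiniteDimensional ℚ F ∧
      ∀ s : ↥K.fixingSubgroup, (s : GQ) ∈ F.fixingSubgroup → χ s = 1) :
    ∃ β : Qb, β ≠ 0 ∧ β ^ p ∈ K ∧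
      ∀ s : ↥K.fixingSubgroup, (s : GQ) β = ζ ^ (Multiplicative.toAdd (χ s)).val * β := by
  classical
  obtain ⟨F, hFfin, hF⟩ := hχ
  haveI := hFfin
  -- a finite Galois extension `E/ℚ` containing `F` and `K`
  set E : IntermediateField ℚ Qb := IntermediateField.normalClosure ℚ (F ⊔ K : IntermediateField ℚ Qb) Qb
    with hE
  have hFKE : (F ⊔ K : IntermediateField ℚ Qb) ≤ E := (F ⊔ K).le_normalClosure
  have hKE : K ≤ E := le_trans le_sup_right hFKE
  have hFE : F ≤ E := le_trans le_sup_left hFKE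
  haveI : FiniteDimensional ℚ E := by rw [hE]; infer_instance
  haveI : Normal ℚ E := normal_of_algebra' _ (by rw [hE]; infer_instance)
  haveI : IsGalois ℚ E := ⟨⟩
  letI : Algebra K E := (IntermediateField.inclusion hKE).toRingHom.toAlgebra
  haveI : IsScalarTower ℚ K E := IsScalarTower.of_algebraMap_eq (fun _ => rfl)
  haveI : IsScalarTower K E Qb := IsScalarTower.of_algebraMap_eq (fun _ => rfl)
  haveI : IsGalois K E := IsGalois.tower_top_of_isGalois ℚ K E
  haveI : FiniteDimensional K E := FiniteDimensional.right ℚ K E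
  -- every `K`-automorphism of `E` lifts to `G_K`
  have hlift : ∀ σ : E ≃ₐ[K] E, ∃ s : ↥K.fixingSubgroup, ∀ x : E, (s : GQ) (x : Qb) = (σ x : Qb) := by
    intro σ
    let g : Qb ≃ₐ[K] Qb := σ.liftNormal Qb
    refine ⟨(IntermediateField.fixingSubgroupEquiv K).symm g, fun x => ?_⟩
    have h1 := σ.liftNormal_commutes Qb x
    exact h1
  choose lift hlift' using hlift
  -- `χ` only depends on the restriction to `E`
  have hdep : ∀ s t : ↥K.fixingSubgroup, (∀ x : E, (s : GQ) (x : Qb) = (t : GQ) (x : Qb)) →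
      χ s = χ t := by
    intro s t h
    have h1 : χ (t⁻¹ * s) = 1 := by
      apply hF
      rw [IntermediateField.mem_fixingSubgroup_iff]
      intro x hx
      have h2 := h ⟨x, hFE hx⟩
      show (((t⁻¹ * s : ↥K.fixingSubgroup) : GQ)) x = x
      rw [Subgroup.coe_mul, Subgroup.coe_inv, AlgEquiv.mul_apply]
      show (t : GQ)⁻¹ ((s : GQ) x) = x
      rw [h2]
      show ((t : GQ)⁻¹ * (t : GQ)) x = x
      rw [inv_mul_cancel]; rfl
    rw [map_mul, map_inv, inv_mul_eq_one] at h1
    exact h1.symm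
  -- the character of `Gal(E/K)`
  let ψ : (E ≃ₐ[K] E) →* Multiplicative (ZMod p) :=
    { toFun := fun σ => χ (lift σ)
      map_one' := by
        rw [← map_one χ]
        apply hdep
        intro x
        rw [hlift' 1 x]
        rfl
      map_mul' := by
        intro σ τ
        rw [← map_mul]
        apply hdep
        intro x
        rw [hlift' (σ * τ) x, Subgroup.coe_mul]
        show ((σ (τ x) : E) : Qb) = (lift σ : GQ) ((lift τ : GQ) (x : Qb))
        rw [hlift' τ x, hlift' σ (τ x)] }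
  -- `ζ` as a root of unity of `K`
  have hζ0 : ζ ≠ 0 := hζ.ne_zero (Fact.out : p.Prime).ne_zero
  let zK : ↥K := ⟨ζ, hζK⟩
  have hzKp : zK ^ p = 1 := Subtype.ext (by simpa using hζ.pow_eq_one)
  let zU : (↥K)ˣ := Units.mkOfMulEqOne zK (zK ^ (p - 1)) (by
    rw [← pow_succ', Nat.sub_add_cancel (Fact.out : p.Prime).one_le, hzKp])
  have hzU : zU ∈ rootsOfUnity p ↥K := by
    rw [mem_rootsOfUnity]
    apply Units.ext
    rw [Units.val_pow_eq_pow_val]
    exact hzKp
  let zR : rootsOfUnity p ↥K := ⟨zU, hzU⟩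
  have hzRp : zR ^ p = 1 := Subtype.ext (by
    rw [Subgroup.coe_pow, Subgroup.coe_one]
    exact (mem_rootsOfUnity _ _).mp hzU)
  obtain ⟨α, hα0, hα⟩ := Fermat.Agent.S55.Kummer99.exists_eigenvector (K := ↥K) (L := ↥E) (n := p)
    ((powHom zR hzRp).comp ψ)
  -- the eigenvector property for all of `G_K`
  have key : ∀ s : ↥K.fixingSubgroup,
      (s : GQ) (α : Qb) = ζ ^ (Multiplicative.toAdd (χ s)).val * (α : Qb) := by
    intro s
    let g : Qb ≃ₐ[K] Qb := IntermediateField.fixingSubgroupEquiv K s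
    let σs : E ≃ₐ[K] E := g.restrictNormal E
    have hσs : ∀ x : E, ((σs x : E) : Qb) = (s : GQ) (x : Qb) := fun x =>
      AlgEquiv.restrictNormal_commutes g E x
    have h1 : ψ σs = χ s := by
      show χ (lift σs) = χ s
      apply hdep
      intro x
      rw [hlift' σs x, hσs x]
    have h2 := hα σs
    have h3 : ((σs α : E) : Qb) = ((algebraMap ↥K ↥E
        ((((powHom zR hzRp).comp ψ) σs : (↥K)ˣ) : ↥K) * α : E) : Qb) :=
      congrArg (fun y : E => (y : Qb)) h2
    rw [hσs α] at h3
    rw [h3]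
    show ((algebraMap ↥K ↥E ((((powHom zR hzRp).comp ψ) σs : (↥K)ˣ) : ↥K) * α : E) : Qb) = _
    rw [MonoidHom.comp_apply, h1, powHom_apply]
    show ((((zR ^ (Multiplicative.toAdd (χ s)).val : rootsOfUnity p ↥K) : (↥K)ˣ) : ↥K) : Qb) *
      (α : Qb) = _
    rw [Subgroup.coe_pow, Units.val_pow_eq_pow_val]
    rfl
  refine ⟨(α : Qb), fun h => hα0 (Subtype.ext h), ?_, key⟩
  · -- `β ^ p` is fixed by `G_K`
    have h1 : (α : Qb) ^ p ∈ IntermediateField.fixedField K.fixingSubgroup := by
      rw [IntermediateField.mem_fixedField_iff]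
      intro s hs
      have h2 := key ⟨s, hs⟩
      rw [map_pow]
      show (s (α : Qb)) ^ p = _
      rw [show s (α : Qb) = ζ ^ (Multiplicative.toAdd (χ ⟨s, hs⟩)).val * (α : Qb) from h2,
        mul_pow, ← pow_mul, mul_comm _ p, pow_mul, hζ.pow_eq_one, one_pow, one_mul]
    rwa [InfiniteGalois.fixedField_fixingSubgroup] at h1

end Fermat.Agent.S55.Fin62.Kummer
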