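/-
S55 / 42-FIN (helper62), part (E): assembly.

`continuousH1S S A` is FINITE for every finite-dimensional smooth `𝔽_p[G_ℚ]`-module `A`
(no hypothesis on `S`, no hypothesis on the ramification of `A`), hence so is `sha₁ S A`; in
particular `sha₁ S (M.dualTwist (cycloChar p))` is finite-dimensional for finite smooth `M`
(the hypothesis `hfin₁` of `Spine15.s55_of_finrank_eq`).

Route: a finite Galois `K/ℚ` with `ζ_p ∈ K` trivialising `A` (part (A), `Cocycle`); the
`S`-characters of `G_K` inject, by Kummer theory (part (B), `Kummer`), into the Selmer group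
`K(T, p)`, `T` the primes of `K` above `S` (part (C), `Unram`), which is finite (part (D),
helper5's `Selmer5.finite_selmerGroup`).
-/
import Mathlib
import Fermat.Prelude.Def_GroupCohomology_ContinuousUnramified
import Fermat.Prelude.Def_ExtCitation_KummerBridge
import Fermat.Agent.Lib.FrobeniusExists
import Fermat.Agent.Lib.InertiaGenerate
import Fermat.Agent.S55.Selmer5
import Fermat.Agent.S55.Fin62.Cocycle
import Fermat.Agent.S55.Fin62.Kummer
import Fermat.Agent.S55.Fin62.Unram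

set_option autoImplicit false
set_option linter.style.haveILetI false
set_option linter.unusedSectionVars false
set_option synthInstance.maxHeartbeats 200000

open scoped NumberField
open IsDedekindDomain CategoryTheory groupCohomology ExtCitation
open Fermat.Agent.Lib.FrobeniusExists Fermat.Agent.Lib.InertiaGenerate

namespace Fermat.Agent.S55.Fin62.Main

attribute [local instance] isAlgebraic_Qb isAlgClosure_Qb isGalois_Qb galActionZb numberField_K
  algOK

variable {p : ℕ} [Fact p.Prime]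

/-! ### the primes of `K` above `S` -/

/-- the set of primes of `𝓞 K` above the primes in `S`. -/
def primesAbove (S : Finset Nat.Primes) (K : IntermediateField ℚ Qb) [FiniteDimensional ℚ K] :
    Set (HeightOneSpectrum (𝓞 K)) :=
  {v | ∃ q ∈ S, (((q : Nat.Primes) : ℕ) : 𝓞 K) ∈ v.asIdeal}

theorem finite_primesAbove (S : Finset Nat.Primes) (K : IntermediateField ℚ Qb)
    [FiniteDimensional ℚ K] : (primesAbove S K).Finite := by
  have h : primesAbove S K =
      ⋃ q ∈ (S : Set Nat.Primes), {v : HeightOneSpectrum (𝓞 K) |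
        (((q : Nat.Primes) : ℕ) : 𝓞 K) ∈ v.asIdeal} := by
    ext v
    simp only [primesAbove, Set.mem_ofPred_eq, Set.mem_iUnion, Finset.mem_coe, exists_prop]
  rw [h]
  refine Set.Finite.biUnion S.finite_toSet (fun q _ => ?_)
  have hq0 : (((q : Nat.Primes) : ℕ) : 𝓞 K) ≠ 0 := by
    have := q.2.ne_zero
    exact_mod_cast this
  have hI : Ideal.span {(((q : Nat.Primes) : ℕ) : 𝓞 K)} ≠ 0 := by
    rw [Ne, Ideal.zero_eq_bot, Ideal.span_singleton_eq_bot]; exact hq0
  refine (Ideal.finite_factors hI).subset ?_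
  intro v hv
  exact Ideal.dvd_span_singleton.2 hv

/-! ### `S`-characters of `G_K` inject into a Selmer group -/

open Fermat.Agent.S55.Fin62.Cocycle Fermat.Agent.S55.Fin62.Kummer Fermat.Agent.S55.Fin62.Unram

/-- **Finiteness of the group of `S`-characters** `Hom_S(G_K, ℤ/p)` for a finite Galois `K/ℚ`
containing `ζ_p`. -/
theorem finite_sChar (S : Finset Nat.Primes) (K : IntermediateField ℚ Qb)
    [FiniteDimensional ℚ K] [IsGalois ℚ K] {ζ : Qb} (hζ : IsPrimitiveRoot ζ p) (hζK : ζ ∈ K) :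
    Finite {χ : ↥K.fixingSubgroup →* Multiplicative (ZMod p) // IsSChar S K χ} := by
  classical
  have hp : p.Prime := Fact.out
  haveI : Fact (0 < p) := ⟨hp.pos⟩
  haveI hfin := Fermat.Agent.S55.Selmer5.finite_selmerGroup ↥K (primesAbove S K)
    (finite_primesAbove S K) p
  -- Kummer generators
  have key : ∀ χ : {χ : ↥K.fixingSubgroup →* Multiplicative (ZMod p) // IsSChar S K χ},
      ∃ β : Qb, β ≠ 0 ∧ β ^ p ∈ K ∧ ∀ s : ↥K.fixingSubgroup,
        (s : GQ) β = ζ ^ (Multiplicative.toAdd (χ.1 s)).val * β := by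
    rintro ⟨χ, F, hF, hχ⟩
    exact exists_kummer_generator K hζ hζK χ ⟨F, hF.1, hχ⟩
  choose β hβ0 hβK hβ using key
  -- the Kummer classes
  have hx0 : ∀ χ, (⟨β χ ^ p, hβK χ⟩ : ↥K) ≠ 0 := by
    intro χ h
    have : β χ ^ p = 0 := congrArg (fun t : ↥K => (t : Qb)) h
    exact hβ0 χ (pow_eq_zero_iff hp.ne_zero |>.1 this)
  let x : {χ : ↥K.fixingSubgroup →* Multiplicative (ZMod p) // IsSChar S K χ} → (↥K)ˣ :=
    fun χ => Units.mk0 ⟨β χ ^ p, hβK χ⟩ (hx0 χ)
  have hmem : ∀ χ, (QuotientGroup.mk (x χ) : (↥K)ˣ ⧸ (powMonoidHom p : (↥K)ˣ →* (↥K)ˣ).range) ∈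
      selmerGroup (R := 𝓞 K) (K := ↥K) (S := primesAbove S K) (n := p) := by
    intro χ v hv
    rw [Fermat.Agent.S55.Selmer5.valuationOfNeZeroMod_mk_eq_one_iff]
    obtain ⟨F, hF, hχF⟩ := χ.2
    have h1 := dvd_log_valuation (p := p) S K F hF (β χ) ⟨β χ ^ p, hβK χ⟩ rfl
      (fun s hs hsF => by
        have h2 := hβ χ ⟨s, hs⟩
        have h3 := hχF ⟨s, hs⟩ hsF
        rw [h3] at h2
        simpa using h2) v
      (fun q hq hqv => hv ⟨q, hq, hqv⟩)
    have h2 : WithZero.log (v.valuation ↥K (⟨β χ ^ p, hβK χ⟩ : ↥K)) =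
        Multiplicative.toAdd (v.valuationOfNeZero (x χ)) := by
      have h3 := HeightOneSpectrum.valuationOfNeZero_eq (K := ↥K) v (x χ)
      have h4 : ((x χ : (↥K)ˣ) : ↥K) = ⟨β χ ^ p, hβK χ⟩ := rfl
      rw [h4] at h3
      rw [← h3]
      rfl
    rw [← h2]
    exact h1
  refine Finite.of_injective (fun χ =>
    (⟨QuotientGroup.mk (x χ), hmem χ⟩ :
      selmerGroup (R := 𝓞 K) (K := ↥K) (S := primesAbove S K) (n := p))) ?_
  intro χ χ' h
  have h1 : (QuotientGroup.mk (x χ) : (↥K)ˣ ⧸ (powMonoidHom p : (↥K)ˣ →* (↥K)ˣ).range) =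
      QuotientGroup.mk (x χ') := congrArg Subtype.val h
  rw [QuotientGroup.eq] at h1
  obtain ⟨b, hb⟩ := h1
  -- `b ^ p * β ^ p = β' ^ p` in `ℚ̄`
  have hb' : ((b : ↥K) : Qb) ^ p * β χ ^ p = β χ' ^ p := by
    have h2 : (x χ) * b ^ p = x χ' := by
      rw [powMonoidHom_apply] at hb
      rw [hb, mul_inv_cancel_left]
    have h3 := congrArg (fun u : (↥K)ˣ => (((u : (↥K)ˣ) : ↥K) : Qb)) h2
    simp only [Units.val_mul, Units.val_pow_eq_pow_val, MulMemClass.coe_mul,
      SubmonoidClass.coe_pow] at h3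
    rw [mul_comm]
    exact h3
  have hbne : ((b : ↥K) : Qb) ≠ 0 := by
    intro h0
    exact b.ne_zero (Subtype.ext h0)
  have hbβ : ((b : ↥K) : Qb) * β χ ≠ 0 := mul_ne_zero hbne (hβ0 χ)
  -- hence `β' = ζ ^ j * (b * β)`
  have hroot : (β χ' / (((b : ↥K) : Qb) * β χ)) ^ p = 1 := by
    rw [div_pow, mul_pow, hb', div_self (pow_ne_zero _ (hβ0 χ'))]
  obtain ⟨j, _, hj⟩ := hζ.eq_pow_of_pow_eq_one hroot
  have hβ' : β χ' = ζ ^ j * (((b : ↥K) : Qb) * β χ) := by
    rw [hj, div_mul_cancel₀ _ hbβ]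
  -- compare the two characters
  apply Subtype.ext
  apply MonoidHom.ext
  intro s
  have hsK : ∀ y ∈ K, (s : GQ) y = y := fun y hy =>
    (IntermediateField.mem_fixingSubgroup_iff K (s : GQ)).1 s.2 y hy
  have e1 : (s : GQ) (β χ') = ζ ^ (Multiplicative.toAdd (χ.1 s)).val * β χ' := by
    rw [hβ', map_mul, map_mul, map_pow, hsK ζ hζK, hsK _ (b : ↥K).2, hβ χ s]
    ring
  have e2 := hβ χ' s
  rw [e1] at e2
  have e3 := mul_right_cancel₀ (hβ0 χ') e2
  have e4 := hζ.pow_inj (ZMod.val_lt _) (ZMod.val_lt _) e3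
  have e5 : Multiplicative.toAdd (χ.1 s) = Multiplicative.toAdd (χ'.1 s) :=
    ZMod.val_injective p e4
  exact Multiplicative.toAdd.injective e5

/-! ### finiteness of `continuousH1S` and of `sha₁` -/

/-- `continuousH1S S A` is finite as soon as `A` (finite-dimensional) is trivialised by a finite
extension `K₀/ℚ` containing `ζ_p` (`K₀` not necessarily Galois). -/
theorem finite_continuousH1S_of_trivialising (S : Finset Nat.Primes) (A : Rep (ZMod p) GQ)
    [FiniteDimensional (ZMod p) A] (K₀ : IntermediateField ℚ Qb) [FiniteDimensional ℚ K₀]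
    {ζ : Qb} (hζ : IsPrimitiveRoot ζ p) (hζK : ζ ∈ K₀)
    (hK : ∀ s ∈ K₀.fixingSubgroup, A.ρ s = 1) : Finite ↥(continuousH1S S A) := by
  have hle : K₀ ≤ IntermediateField.normalClosure ℚ K₀ Qb := K₀.le_normalClosure
  haveI : FiniteDimensional ℚ (IntermediateField.normalClosure ℚ K₀ Qb) := inferInstance
  haveI : IsGalois ℚ (IntermediateField.normalClosure ℚ K₀ Qb) := isGalois_normalClosure K₀
  exact finite_continuousH1S_of_finite_sChar S A (IntermediateField.normalClosure ℚ K₀ Qb)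
    (fun s hs => hK s (IntermediateField.fixingSubgroup_antitone hle hs))
    (finite_sChar S _ hζ (hle hζK))

/-- **Finiteness of `H¹(G_S, A)`** (level-cocycle model) for finite-dimensional smooth `A`. -/
theorem finite_continuousH1S (S : Finset Nat.Primes) (A : Rep (ZMod p) GQ)
    [FiniteDimensional (ZMod p) A]
    (hsm : ∀ m : A, ∃ F : IntermediateField ℚ Qb, FiniteDimensional ℚ F ∧
      ∀ s ∈ F.fixingSubgroup, A.ρ s m = m) : Finite ↥(continuousH1S S A) := by
  obtain ⟨K, ζ, hKfin, hζ, hζK, hK⟩ := exists_trivialising_field A hsm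
  haveI := hKfin
  exact finite_continuousH1S_of_trivialising S A K hζ hζK hK

/-- a submodule of a finite submodule is finite-dimensional. -/
theorem finiteDimensional_of_le_of_finite {V : Type*} [AddCommGroup V] [Module (ZMod p) V]
    {N N' : Submodule (ZMod p) V} (h : N ≤ N') [Finite ↥N'] : FiniteDimensional (ZMod p) ↥N := by
  haveI : Finite ↥N := Finite.of_injective (Submodule.inclusion h) (Submodule.inclusion_injective h)
  exact Module.Finite.of_finite

theorem finiteDimensional_sha₁_of_trivialising (S : Finset Nat.Primes) (A : Rep (ZMod p) GQ)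
    [FiniteDimensional (ZMod p) A] (K₀ : IntermediateField ℚ Qb) [FiniteDimensional ℚ K₀]
    {ζ : Qb} (hζ : IsPrimitiveRoot ζ p) (hζK : ζ ∈ K₀)
    (hK : ∀ s ∈ K₀.fixingSubgroup, A.ρ s = 1) : FiniteDimensional (ZMod p) ↥(sha₁ S A) := by
  haveI := finite_continuousH1S_of_trivialising S A K₀ hζ hζK hK
  exact finiteDimensional_of_le_of_finite (N' := continuousH1S S A) inf_le_left

/-- **`Ш¹_S(A)` is finite-dimensional** for finite-dimensional smooth `A`. -/
theorem finiteDimensional_sha₁ (S : Finset Nat.Primes) (A : Rep (ZMod p) GQ)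
    [FiniteDimensional (ZMod p) A]
    (hsm : ∀ m : A, ∃ F : IntermediateField ℚ Qb, FiniteDimensional ℚ F ∧
      ∀ s ∈ F.fixingSubgroup, A.ρ s m = m) : FiniteDimensional (ZMod p) ↥(sha₁ S A) := by
  haveI := finite_continuousH1S S A hsm
  exact finiteDimensional_of_le_of_finite (N' := continuousH1S S A) inf_le_left

/-! ### the Tate twist of the dual -/

/-- the mod `p` cyclotomic character is trivial on automorphisms fixing `ζ_p`. -/
theorem cycloChar_eq_one_of_fix {ζ : Qb} (hζ : IsPrimitiveRoot ζ p) (g : GQ) (hg : g ζ = ζ) :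
    cycloChar p g = 1 := by
  have hp : p.Prime := Fact.out
  haveI : NeZero p := ⟨hp.ne_zero⟩
  have hu : IsUnit ζ := hζ.isUnit (NeZero.ne p)
  obtain ⟨u, rfl⟩ := hu
  have hmem : u ∈ rootsOfUnity p Qb := by
    rw [mem_rootsOfUnity]; ext; simpa using hζ.pow_eq_one
  have h1 : g (u : Qb) = (u : Qb) ^ ((cycloChar p g : (ZMod p)ˣ) : ZMod p).val :=
    modularCyclotomicCharacter.spec Qb (card_rootsOfUnity_eq_self p) (g : Qb ≃+* Qb) hmem
  rw [hg] at h1
  have h2 : (u : Qb) ^ 1 = (u : Qb) ^ ((cycloChar p g : (ZMod p)ˣ) : ZMod p).val := by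
    rw [pow_one]; exact h1
  have h3 : 1 = ((cycloChar p g : (ZMod p)ˣ) : ZMod p).val :=
    hζ.pow_inj hp.one_lt (ZMod.val_lt _) h2
  apply Units.ext
  apply ZMod.val_injective
  rw [← h3]
  haveI : Fact (1 < p) := ⟨hp.one_lt⟩
  simp [ZMod.val_one]

/-- a field trivialising `M` and containing `ζ_p` trivialises `M^∨(1)`. -/
theorem dualTwist_trivial (M : Rep (ZMod p) GQ) (K : IntermediateField ℚ Qb) {ζ : Qb}
    (hζ : IsPrimitiveRoot ζ p) (hζK : ζ ∈ K) (hK : ∀ s ∈ K.fixingSubgroup, M.ρ s = 1) :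
    ∀ s ∈ K.fixingSubgroup, (M.dualTwist (cycloChar p)).ρ s = 1 := by
  intro s hs
  have hsζ : s ζ = ζ := (IntermediateField.mem_fixingSubgroup_iff K s).1 hs ζ hζK
  have hs' : s⁻¹ ∈ K.fixingSubgroup := inv_mem hs
  apply LinearMap.ext
  intro f
  rw [Rep.dualTwist_ρ_apply, cycloChar_eq_one_of_fix hζ s hsζ, hK s⁻¹ hs', Units.val_one, one_smul]
  exact LinearMap.ext fun m => rfl

/-- **hypothesis `hfin₁` of the S55 spine** (`Spine15.s55_of_finrank_eq`): for a
finite-dimensional smooth `M`, `Ш¹_S(M^∨(1))` is finite-dimensional. -/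
theorem finiteDimensional_sha₁_dualTwist (S : Finset Nat.Primes) (M : Rep (ZMod p) GQ)
    [FiniteDimensional (ZMod p) M]
    (hsm : ∀ m : M, ∃ F : IntermediateField ℚ Qb, FiniteDimensional ℚ F ∧
      ∀ s ∈ F.fixingSubgroup, M.ρ s m = m) :
    FiniteDimensional (ZMod p) ↥(sha₁ S (M.dualTwist (cycloChar p))) := by
  obtain ⟨K, ζ, hKfin, hζ, hζK, hK⟩ := exists_trivialising_field M hsm
  haveI := hKfin
  haveI : FiniteDimensional (ZMod p) (M.dualTwist (cycloChar p)) :=
    inferInstanceAs (FiniteDimensional (ZMod p) (Module.Dual (ZMod p) M))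
  exact finiteDimensional_sha₁_of_trivialising S (M.dualTwist (cycloChar p)) K hζ hζK
    (dualTwist_trivial M K hζ hζK hK)

/-- same, for `continuousH1S`. -/
theorem finite_continuousH1S_dualTwist (S : Finset Nat.Primes) (M : Rep (ZMod p) GQ)
    [FiniteDimensional (ZMod p) M]
    (hsm : ∀ m : M, ∃ F : IntermediateField ℚ Qb, FiniteDimensional ℚ F ∧
      ∀ s ∈ F.fixingSubgroup, M.ρ s m = m) :
    Finite ↥(continuousH1S S (M.dualTwist (cycloChar p))) := by
  obtain ⟨K, ζ, hKfin, hζ, hζK, hK⟩ := exists_trivialising_field M hsm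
  haveI := hKfin
  haveI : FiniteDimensional (ZMod p) (M.dualTwist (cycloChar p)) :=
    inferInstanceAs (FiniteDimensional (ZMod p) (Module.Dual (ZMod p) M))
  exact finite_continuousH1S_of_trivialising S (M.dualTwist (cycloChar p)) K hζ hζK
    (dualTwist_trivial M K hζ hζK hK)

end Fermat.Agent.S55.Fin62.Main
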