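/-
S55 / 42-FIN (helper62), part (C): unramified Kummer generators have `p`-divisible valuations.

`K/ℚ` finite Galois inside `ℚ̄`, `β ∈ ℚ̄` with `β ^ p = a ∈ K`, `F` unramified outside `S` (Prelude
sense) such that `G_K ∩ G_F` fixes `β`.  Then for every prime `v` of `𝓞 K` not above `S`,
`p ∣ v(a)`.
-/
import Mathlib
import Fermat.Prelude.Def_GroupCohomology_ContinuousUnramified
import Fermat.Agent.Lib.FrobeniusExists
import Fermat.Agent.Lib.InertiaGenerate

set_option autoImplicit false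
set_option linter.style.haveILetI false
set_option linter.unusedSectionVars false
set_option synthInstance.maxHeartbeats 200000

open scoped NumberField Pointwise
open IsDedekindDomain
open Fermat.Agent.Lib.FrobeniusExists Fermat.Agent.Lib.InertiaGenerate

namespace Fermat.Agent.S55.Fin62.Unram

attribute [local instance] isAlgebraic_Qb isAlgClosure_Qb isGalois_Qb galActionZb numberField_K
  algOK

/-! ### normal closures of fields unramified outside `S` -/

section Normal

variable {S : Finset Nat.Primes}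

theorem isUnramifiedOutside_map {F : IntermediateField ℚ Qb} (hF : F.IsUnramifiedOutside S)
    (g : GQ) : (F.map (g : Qb →ₐ[ℚ] Qb)).IsUnramifiedOutside S := by
  haveI := hF.1
  refine ⟨?_, fun q hq A hA σ hσ => ?_⟩
  · exact LinearEquiv.finiteDimensional (F.equivMap (g : Qb →ₐ[ℚ] Qb)).toLinearEquiv
  · rw [IntermediateField.mem_fixingSubgroup_iff]
    rintro x ⟨y, hy, rfl⟩
    -- `g⁻¹ σ g` is an inertia element of `g⁻¹ • A`
    have hq' : (q : ℕ).Prime := q.2
    have h1 : g⁻¹ * σ * g⁻¹⁻¹ ∈ (g⁻¹ • A).inertiaSubgroupIn ℚ :=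
      conj_mem_inertiaSubgroupIn hq' hA g⁻¹ hσ
    have h2 : (g⁻¹ • A).LiesOverPrime (q : ℕ) := liesOverPrime_smul hA g⁻¹
    have h3 := hF.2 q hq (g⁻¹ • A) h2 h1
    rw [IntermediateField.mem_fixingSubgroup_iff] at h3
    have h4 := h3 y hy
    have h5 : (g⁻¹ * σ * g⁻¹⁻¹) y = g⁻¹ (σ (g y)) := by
      rw [inv_inv]; rfl
    rw [h5] at h4
    have h6 := congrArg g h4
    rw [show g (g⁻¹ (σ (g y))) = σ (g y) from by
      rw [← AlgEquiv.mul_apply, mul_inv_cancel]; rfl] at h6
    exact h6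

theorem isUnramifiedOutside_normalClosure {F : IntermediateField ℚ Qb}
    (hF : F.IsUnramifiedOutside S) :
    (IntermediateField.normalClosure ℚ F Qb).IsUnramifiedOutside S := by
  haveI := hF.1
  refine ⟨inferInstance, fun q hq A hA σ hσ => ?_⟩
  rw [IntermediateField.mem_fixingSubgroup_iff]
  intro x hx
  have hdef := IntermediateField.normalClosure_def'' (F := ℚ) (L := Qb) F
  replace hx : x ∈ ⨆ g : GQ, F.map (g : Qb →ₐ[ℚ] Qb) := by
    rw [← hdef]; exact hx
  -- induction on the supremum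
  have key : ∀ g : GQ, F.map (g : Qb →ₐ[ℚ] Qb) ≤
      IntermediateField.fixedField (Subgroup.zpowers σ) := by
    intro g y hy
    rw [IntermediateField.mem_fixedField_iff]
    intro τ hτ
    obtain ⟨n, rfl⟩ := Subgroup.mem_zpowers_iff.mp hτ
    have h1 := (isUnramifiedOutside_map hF g).2 q hq A hA hσ
    have h2 : σ ^ n ∈ (F.map (g : Qb →ₐ[ℚ] Qb)).fixingSubgroup := zpow_mem h1 n
    rw [IntermediateField.mem_fixingSubgroup_iff] at h2
    exact h2 y hy
  have hle : (⨆ g : GQ, F.map (g : Qb →ₐ[ℚ] Qb)) ≤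
      IntermediateField.fixedField (Subgroup.zpowers σ) := iSup_le key
  have := hle hx
  rw [IntermediateField.mem_fixedField_iff] at this
  exact this σ (Subgroup.mem_zpowers σ)

end Normal

/-! ### Mathlib inertia groups at primes where Prelude inertia acts trivially -/

section Inertia

variable (K0 L0 : IntermediateField ℚ Qb) (hle : K0 ≤ L0) [FiniteDimensional ℚ L0] [IsGalois ℚ L0]

/-- per-prime version of `S14.UnfoldUnram89.inertia_eq_bot_of_fixingSubgroup`. -/
theorem inertia_eq_bot_at (P : Ideal (𝓞 L0)) [hPprime : P.IsPrime] (hP : P ≠ ⊥)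
    (hI : ∀ (q : ℕ) (A : ValuationSubring Qb), q.Prime → A.LiesOverPrime q →
      ((q : ℕ) : 𝓞 L0) ∈ P → ∀ g ∈ K0.fixingSubgroup, g ∈ A.inertiaSubgroupIn ℚ →
        g ∈ L0.fixingSubgroup) :
    letI : Algebra K0 L0 := (IntermediateField.inclusion hle).toRingHom.toAlgebra
    P.inertia (L0 ≃ₐ[K0] L0) = ⊥ := by
  letI : Algebra K0 L0 := (IntermediateField.inclusion hle).toRingHom.toAlgebra
  rw [eq_bot_iff]
  intro s hs
  rw [Subgroup.mem_bot]
  let τ : Gal(L0/ℚ) := AlgEquiv.ofRingEquiv (f := s.toRingEquiv) (fun r => by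
    show s (algebraMap ℚ L0 r) = algebraMap ℚ L0 r
    rw [eq_ratCast, map_ratCast])
  have hτs : ∀ x : L0, τ x = s x := fun x => rfl
  have hτ : τ ∈ P.inertia Gal(L0/ℚ) := fun x => hs x
  obtain ⟨q, A, hq, hA, hc⟩ := exists_valuationSubring_under_eq L0 P hP
  obtain ⟨σ, hσ, hστ⟩ := exists_mem_inertiaSubgroupIn_restrict L0 hq A hA τ (hc ▸ hτ)
  -- `σ` fixes `K0`
  have hσK : σ ∈ K0.fixingSubgroup := by
    rw [IntermediateField.mem_fixingSubgroup_iff]
    intro x hx
    have h1 := AlgEquiv.restrictNormal_commutes σ L0 ⟨x, hle hx⟩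
    have h2 : σ.restrictNormal L0 ⟨x, hle hx⟩ = τ ⟨x, hle hx⟩ := by
      rw [← hστ]; rfl
    have h3 : τ ⟨x, hle hx⟩ = (⟨x, hle hx⟩ : L0) := by
      rw [hτs]
      exact s.commutes (⟨x, hx⟩ : K0)
    rw [h2, h3] at h1
    exact h1.symm
  have hqP : ((q : ℕ) : 𝓞 L0) ∈ P := by
    rw [← hc, Ideal.mem_comap, map_natCast, mem_center]
    have : ((q : ℕ) : Qb) ∈ A.nonunits := hA
    simpa using this
  have hσL := hI q A hq hA hqP σ hσK hσ
  rw [IntermediateField.mem_fixingSubgroup_iff] at hσL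
  refine AlgEquiv.ext fun x => ?_
  have h1 := AlgEquiv.restrictNormal_commutes σ L0 x
  have h2 : σ.restrictNormal L0 x = τ x := by
    rw [← hστ]; rfl
  rw [h2, hτs] at h1
  apply Subtype.ext
  show ((s x : L0) : Qb) = ((x : L0) : Qb)
  have h3 : algebraMap L0 Qb (s x) = σ (algebraMap L0 Qb x) := h1
  have h4 : σ (algebraMap L0 Qb x) = algebraMap L0 Qb x := hσL _ x.2
  rw [h4] at h3
  exact h3

end Inertia

/-! ### trivial inertia implies equal normalised valuations -/

section Valuation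

variable {K L : Type} [Field K] [NumberField K] [Field L] [NumberField L] [Algebra K L]
  [IsGalois K L]

/-- per-prime version of `S14.KummerNF69.exists_unramified_valuation`. -/
theorem valuation_eq_of_inertia_eq_bot (v : HeightOneSpectrum (𝓞 K))
    (w : HeightOneSpectrum (𝓞 L)) [hlies : w.asIdeal.LiesOver v.asIdeal]
    (h : Ideal.inertia (L ≃ₐ[K] L) w.asIdeal = ⊥) (x : K) :
    v.valuation K x = w.valuation L (algebraMap K L x) := by
  have := v.isPrime
  have := w.isPrime
  have h1 : Nat.card (w.asIdeal.inertia (L ≃ₐ[K] L)) = 1 := by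
    rw [h]; simp
  have h2 := Ideal.card_inertia_eq_ramificationIdxIn (G := L ≃ₐ[K] L) v.asIdeal w.asIdeal
  have h3 := Ideal.ramificationIdxIn_eq_ramificationIdx v.asIdeal w.asIdeal (L ≃ₐ[K] L)
  have h4 := Ideal.ramificationIdx'_eq_ramificationIdx v.asIdeal w.asIdeal v.ne_bot
  have h5 := HeightOneSpectrum.valuation_liesOver L v w x
  rw [h4, ← h3, ← h2, h1, pow_one] at h5
  exact h5

end Valuation

/-! ### the main statement of part (C) -/

section Main

theorem normal_of_algebra' (E : IntermediateField ℚ Qb) (h : @Normal ℚ E _ _ E.algebra') :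
    Normal ℚ E := h

theorem normal_algebra'_of (E : IntermediateField ℚ Qb) (h : Normal ℚ E) :
    @Normal ℚ E _ _ E.algebra' := h

theorem isGalois_sup (F K : IntermediateField ℚ Qb) [hF : IsGalois ℚ F] [hK : IsGalois ℚ K] :
    IsGalois ℚ (F ⊔ K : IntermediateField ℚ Qb) := by
  haveI := normal_algebra'_of F hF.to_normal
  haveI := normal_algebra'_of K hK.to_normal
  haveI : Normal ℚ (F ⊔ K : IntermediateField ℚ Qb) := normal_of_algebra' _ inferInstance
  exact ⟨⟩

theorem isGalois_normalClosure (F : IntermediateField ℚ Qb) :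
    IsGalois ℚ (IntermediateField.normalClosure ℚ F Qb) := by
  haveI : Normal ℚ (IntermediateField.normalClosure ℚ F Qb) :=
    normal_of_algebra' _ inferInstance
  exact ⟨⟩

/-- **(C)** -/
theorem dvd_log_valuation {p : ℕ} (S : Finset Nat.Primes) (K : IntermediateField ℚ Qb)
    [FiniteDimensional ℚ K] [IsGalois ℚ K]
    (F : IntermediateField ℚ Qb) (hF : F.IsUnramifiedOutside S) (β : Qb) (a : K)
    (hβ : β ^ p = (a : Qb))
    (hfix : ∀ s ∈ K.fixingSubgroup, s ∈ F.fixingSubgroup → s β = β)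
    (v : HeightOneSpectrum (𝓞 K)) (hv : ∀ q ∈ S, (((q : Nat.Primes) : ℕ) : 𝓞 K) ∉ v.asIdeal) :
    (p : ℤ) ∣ WithZero.log (v.valuation K a) := by
  haveI := hF.1
  -- the Galois closure of `F`, and the field `L0`
  set Ft : IntermediateField ℚ Qb := IntermediateField.normalClosure ℚ F Qb with hFt
  have hFtu : Ft.IsUnramifiedOutside S := isUnramifiedOutside_normalClosure hF
  haveI : FiniteDimensional ℚ Ft := hFtu.1
  haveI : IsGalois ℚ Ft := isGalois_normalClosure F
  set L0 : IntermediateField ℚ Qb := Ft ⊔ K with hL0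
  haveI : FiniteDimensional ℚ L0 := IntermediateField.finiteDimensional_sup Ft K
  haveI : IsGalois ℚ L0 := isGalois_sup Ft K
  have hle : K ≤ L0 := le_sup_right
  have hFle : F ≤ L0 := le_trans F.le_normalClosure le_sup_left
  -- `β ∈ L0`
  have hβL : β ∈ L0 := by
    have h1 : β ∈ IntermediateField.fixedField ((F ⊔ K).fixingSubgroup) := by
      rw [IntermediateField.mem_fixedField_iff]
      intro s hs
      rw [IntermediateField.fixingSubgroup_sup] at hs
      exact hfix s hs.2 hs.1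
    rw [InfiniteGalois.fixedField_fixingSubgroup] at h1
    exact (sup_le hFle hle) h1
  letI : Algebra K L0 := (IntermediateField.inclusion hle).toRingHom.toAlgebra
  haveI : IsScalarTower ℚ K L0 := IsScalarTower.of_algebraMap_eq (fun _ => rfl)
  haveI : IsGalois K L0 := IsGalois.tower_top_of_isGalois ℚ K L0
  -- a prime of `L0` over `v`
  have := v.isPrime
  obtain ⟨P, -, hP, hPv⟩ := Ideal.exists_ideal_over_prime_of_isIntegral v.asIdeal
    (⊥ : Ideal (𝓞 L0)) (by simp)
  have hlies : P.LiesOver v.asIdeal := ⟨hPv.symm⟩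
  have hP0 : P ≠ ⊥ := Ideal.ne_bot_of_liesOver_of_ne_bot v.ne_bot P
  let w : HeightOneSpectrum (𝓞 L0) := ⟨P, hP, hP0⟩
  haveI : w.asIdeal.LiesOver v.asIdeal := hlies
  -- inertia at `P` is trivial
  have hin : P.inertia (L0 ≃ₐ[K] L0) = ⊥ := by
    refine inertia_eq_bot_at K L0 hle P hP0 ?_
    intro q A hq hA hqP g hgK hgI
    have hqS : (⟨q, hq⟩ : Nat.Primes) ∉ S := by
      intro hmem
      apply hv ⟨q, hq⟩ hmem
      have : ((q : ℕ) : 𝓞 K) ∈ P.comap (algebraMap (𝓞 K) (𝓞 L0)) := by
        rw [Ideal.mem_comap, map_natCast]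
        exact hqP
      rw [hPv] at this
      exact this
    have h1 := hFtu.2 ⟨q, hq⟩ hqS A hA hgI
    rw [hL0, IntermediateField.fixingSubgroup_sup]
    exact ⟨h1, hgK⟩
  have hval := valuation_eq_of_inertia_eq_bot (K := K) (L := L0) v w hin (a : K)
  -- `a = β ^ p` in `L0`
  have hβ' : (⟨β, hβL⟩ : L0) ^ p = algebraMap K L0 a := by
    apply Subtype.ext
    show β ^ p = (a : Qb)
    exact hβ
  rw [hval, ← hβ', map_pow, WithZero.log_pow]
  exact ⟨WithZero.log (w.valuation L0 ⟨β, hβL⟩), by simp⟩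

end Main

end Fermat.Agent.S55.Fin62.Unram
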